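/-
Rational points of the elliptic curve 15a8 : y^2 + x y + y = x^3 + x^2 (a model of X_1(15)).
Elementary 2-descent: everything reduces to m^4 - 7 m^2 e^2 + 16 e^4 = n^2, solved by
infinite descent with Pythagorean triples.
-/
import Mathlib.NumberTheory.PythagoreanTriples
import Mathlib.RingTheory.Int.Basic
import Mathlib.Data.Nat.Squarefree
import Mathlib.Data.ZMod.Basic
import Mathlib.Data.Rat.Lemmas
import Mathlib.Tactic

set_option autoImplicit false

namespace Fermat.Agent.Descent15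

/-- Four number lemma. -/
lemma four_number {x y z w : ℤ} (hx : x ≠ 0) (hxy : IsCoprime x y) (h : x * y = z * w) :
    ∃ a b c d : ℤ, x = a * b ∧ z = a * c ∧ w = b * d ∧ y = c * d ∧ IsCoprime b c := by
  obtain ⟨a, b, c, hbc, hxa, hza⟩ :
      ∃ a b c : ℤ, IsCoprime b c ∧ x = a * b ∧ z = a * c := by
    obtain ⟨g, b, c, _, hbc, hxa, hza⟩ :
        ∃ g b c : ℤ, 0 < g ∧ IsCoprime b c ∧ x = b * g ∧ z = c * g := by
      have hg : 0 < Int.gcd x z := Int.gcd_pos_of_ne_zero_left _ hx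
      obtain ⟨b, c, hbc, hb, hc⟩ := Int.exists_gcd_one hg
      exact ⟨Int.gcd x z, b, c, by exact_mod_cast hg, Int.isCoprime_iff_gcd_eq_one.2 hbc, hb, hc⟩
    exact ⟨g, b, c, hbc, by rw [hxa]; ring, by rw [hza]; ring⟩
  subst hxa hza
  have ha : a ≠ 0 := left_ne_zero_of_mul hx
  have h' : b * y = c * w := mul_left_cancel₀ ha (by linear_combination h)
  obtain ⟨d, rfl⟩ : b ∣ w := hbc.dvd_of_dvd_mul_left ⟨y, h'.symm⟩
  refine ⟨a, b, c, d, rfl, rfl, rfl, ?_, hbc⟩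
  have hb : b ≠ 0 := right_ne_zero_of_mul hx
  exact mul_left_cancel₀ hb (by linear_combination h')

/-- A positive divisor of `15` which is `7 mod 8` is `15`; one that is `1 mod 8` is `1`. -/
lemma dvd_fifteen {k : ℤ} (h0 : 0 < k) (h : k ∣ 15) : k = 1 ∨ k = 3 ∨ k = 5 ∨ k = 15 := by
  have hle : k ≤ 15 := Int.le_of_dvd (by norm_num) h
  interval_cases k <;> omega

lemma dvd_fifteen_of_coprime {k s t : ℤ} (hst : IsCoprime s t) (hs : k ∣ 15 * s)
    (ht : k ∣ 15 * t) : k ∣ 15 := by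
  obtain ⟨u, v, huv⟩ := hst
  have : 15 * s * u + 15 * t * v = 15 := by linear_combination 15 * huv
  rw [← this]
  exact dvd_add (hs.mul_right u) (ht.mul_right v)

lemma coprime_sq_of_coprime {s t : ℤ} (h : IsCoprime s t) : IsCoprime (s ^ 2) (t ^ 2) :=
  h.pow

lemma sq_mod_eight_of_odd {x : ℤ} (h : x % 2 = 1) : ∃ j, x ^ 2 = 8 * j + 1 := by
  obtain ⟨i, rfl⟩ : ∃ i, x = 2 * i + 1 := ⟨x / 2, by omega⟩
  obtain ⟨j, hj⟩ := Int.even_mul_succ_self i
  exact ⟨j, by linear_combination 4 * hj⟩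

/-- The concordant forms `a^2 + d^2` and `a^2 + 16 d^2` are squares only for `d = 0`. -/
lemma concordant : ∀ N : ℕ, ∀ a d c b : ℤ, d.natAbs = N → a % 2 = 1 → IsCoprime a d →
    a ^ 2 + d ^ 2 = c ^ 2 → a ^ 2 + 16 * d ^ 2 = b ^ 2 → d = 0 := by
  intro N
  induction N using Nat.strong_induction_on with
  | _ N ih =>
    intro a d c b hN ha had hc hb
    by_contra hd
    wlog ha4 : a % 4 = 1 generalizing a
    · exact this (-a) (by omega) had.neg_left (by linear_combination hc)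
        (by linear_combination hb) (by omega)
    have h1 : PythagoreanTriple a d c := by
      unfold PythagoreanTriple; linear_combination hc
    have h2 : PythagoreanTriple a (4 * d) b := by
      unfold PythagoreanTriple; linear_combination hb
    have ha2 : IsCoprime a 2 := ⟨1, -(a / 2), by omega⟩
    have had4 : IsCoprime a (4 * d) := by
      have : IsCoprime a (2 * 2 * d) := (ha2.mul_right ha2).mul_right had
      simpa using this
    obtain ⟨P, Q, hP⟩ := PythagoreanTriple.coprime_classification.1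
      ⟨h1, Int.isCoprime_iff_gcd_eq_one.1 had⟩
    obtain ⟨R, S, hR⟩ := PythagoreanTriple.coprime_classification.1
      ⟨h2, Int.isCoprime_iff_gcd_eq_one.1 had4⟩
    obtain ⟨⟨haP, hdP⟩ | ⟨haP, -⟩, -, hPQ, hparP⟩ := hP
    swap
    · rw [mul_assoc] at haP; omega
    obtain ⟨⟨haR, hdR⟩ | ⟨haR, -⟩, -, hRS, hparR⟩ := hR
    swap
    · rw [mul_assoc] at haR; omega
    have hPodd : P % 2 = 1 ∧ Q % 2 = 0 := by
      rcases hparP with h | h
      · exfalso
        obtain ⟨i, hi⟩ : ∃ i, P = 2 * i := ⟨P / 2, by omega⟩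
        obtain ⟨j, hj⟩ : ∃ j, Q = 2 * j + 1 := ⟨Q / 2, by omega⟩
        have : a = 4 * (i ^ 2 - j ^ 2 - j) - 1 := by rw [haP, hi, hj]; ring
        omega
      · exact h
    have hRodd : R % 2 = 1 ∧ S % 2 = 0 := by
      rcases hparR with h | h
      · exfalso
        obtain ⟨i, hi⟩ : ∃ i, R = 2 * i := ⟨R / 2, by omega⟩
        obtain ⟨j, hj⟩ : ∃ j, S = 2 * j + 1 := ⟨S / 2, by omega⟩
        have : a = 4 * (i ^ 2 - j ^ 2 - j) - 1 := by rw [haR, hi, hj]; ring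
        omega
      · exact h
    have hRS' : IsCoprime R S := Int.isCoprime_iff_gcd_eq_one.2 hRS
    have hR2 : IsCoprime R 2 := ⟨1, -(R / 2), by omega⟩
    have hR4 : IsCoprime (4 : ℤ) R := by simpa using hR2.symm.mul_left hR2.symm
    have h4 : (4 : ℤ) ∣ R * S := ⟨P * Q, by rw [hdP] at hdR; linarith [hdR, mul_assoc 2 R S, mul_assoc 2 P Q]⟩
    obtain ⟨T, rfl⟩ : (4 : ℤ) ∣ S := hR4.dvd_of_dvd_mul_left h4
    have hRT : R * T = P * Q := by
      have : 8 * (R * T) = 8 * (P * Q) := by rw [hdP] at hdR; linear_combination -hdR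
      omega
    have hR0 : R ≠ 0 := by omega
    obtain ⟨w, x, y, z, hRwx, hPwy, hQxz, hTyz, hxy⟩ :=
      four_number hR0 hRS'.of_mul_right_right hRT
    subst hRwx hPwy hQxz hTyz
    have hwodd : w % 2 = 1 := Int.odd_iff.1 (Int.Odd.of_mul_left (Int.odd_iff.2 hRodd.1))
    have hxodd : x % 2 = 1 := Int.odd_iff.1 (Int.Odd.of_mul_right (Int.odd_iff.2 hRodd.1))
    have hyodd : y % 2 = 1 := Int.odd_iff.1 (Int.Odd.of_mul_right (Int.odd_iff.2 hPodd.1))
    have hzeven : z % 2 = 0 := by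
      have h : 2 ∣ x * z := Int.dvd_of_emod_eq_zero hPodd.2
      rcases Int.Prime.dvd_mul' Nat.prime_two h with h | h <;> omega
    have key : x ^ 2 * (w ^ 2 + z ^ 2) = y ^ 2 * (w ^ 2 + 16 * z ^ 2) := by
      linear_combination -(haP.symm.trans haR)
    obtain ⟨g, hg⟩ : y ^ 2 ∣ w ^ 2 + z ^ 2 :=
      hxy.symm.pow.dvd_of_dvd_mul_left ⟨_, key⟩
    have hy0 : y ^ 2 ≠ 0 := pow_ne_zero 2 (by omega)
    have hg' : w ^ 2 + 16 * z ^ 2 = x ^ 2 * g :=
      mul_left_cancel₀ hy0 (by rw [← key, hg]; ring)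
    have hwz : IsCoprime w z :=
      (Int.isCoprime_iff_gcd_eq_one.2 hPQ).of_mul_left_left.of_mul_right_right
    have hg15 : g ∣ 15 := by
      refine dvd_fifteen_of_coprime (coprime_sq_of_coprime hwz) ?_ ?_
      · exact ⟨16 * y ^ 2 - x ^ 2, by linear_combination 16 * hg - hg'⟩
      · exact ⟨x ^ 2 - y ^ 2, by linear_combination hg' - hg⟩
    have hgpos : 0 < g := by
      by_contra hneg
      have hw0 : w ≠ 0 := by omega
      have h1 : 0 < w ^ 2 := by positivity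
      nlinarith [sq_nonneg z, sq_nonneg y]
    have hg1 : g = 1 := by
      obtain ⟨i, hi⟩ := sq_mod_eight_of_odd hwodd
      obtain ⟨j, hj⟩ := sq_mod_eight_of_odd hxodd
      have : 8 * i + 1 + 16 * z ^ 2 = 8 * (j * g) + g := by
        linear_combination hg' - hi + g * hj
      rcases dvd_fifteen hgpos hg15 with h | h | h | h <;> omega
    subst hg1
    have hlt : z.natAbs < N := by
      have hdne : (2 : ℤ) * (w * y) * (x * z) ≠ 0 := by rw [← hdP]; exact hd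
      rw [← hN, hdP, Int.natAbs_mul, Int.natAbs_mul, Int.natAbs_mul, Int.natAbs_mul]
      have hz : 0 < z.natAbs := by
        have : z ≠ 0 := fun hz => hdne (by rw [hz]; ring)
        omega
      have hw' : 0 < w.natAbs := by omega
      have hy' : 0 < y.natAbs := by omega
      have hx' : 0 < x.natAbs := by omega
      calc z.natAbs < 2 * z.natAbs := by omega
        _ ≤ _ := by
          have h2 : (2 : ℤ).natAbs = 2 := rfl
          rw [h2]
          calc 2 * z.natAbs = 2 * (1 * 1) * (1 * z.natAbs) := by ring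
            _ ≤ _ := by gcongr <;> omega
    have hz0 := ih z.natAbs hlt w z y x rfl hwodd hwz (by linear_combination hg)
      (by linear_combination hg')
    subst hz0
    exact hd (by rw [hdP]; ring)

lemma quartic_odd {m e n : ℤ} (hm : m % 2 = 1) (hco : IsCoprime m e)
    (h : (m ^ 2 - 4 * e ^ 2) ^ 2 + (m * e) ^ 2 = n ^ 2) : e = 0 := by
  have hp : PythagoreanTriple (m ^ 2 - 4 * e ^ 2) (m * e) n := by
    unfold PythagoreanTriple; linear_combination h
  obtain ⟨j, hj⟩ := sq_mod_eight_of_odd hm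
  have hm2 : IsCoprime m 2 := ⟨1, -(m / 2), by omega⟩
  have hme : IsCoprime (m ^ 2 - 4 * e ^ 2) (m * e) := by
    refine IsCoprime.mul_right ?_ ?_
    · rw [show m ^ 2 - 4 * e ^ 2 = -(4 * e ^ 2) + m * m by ring, IsCoprime.add_mul_right_left_iff]
      have : IsCoprime (2 * 2 * e ^ 2) m :=
        (hm2.symm.mul_left hm2.symm).mul_left hco.symm.pow_left
      exact (by simpa using this : IsCoprime (4 * e ^ 2) m).neg_left
    · rw [show m ^ 2 - 4 * e ^ 2 = m ^ 2 + (-(4 * e)) * e by ring,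
        IsCoprime.add_mul_right_left_iff]
      exact hco.pow_left
  obtain ⟨p, q, hpq⟩ := PythagoreanTriple.coprime_classification.1
    ⟨hp, Int.isCoprime_iff_gcd_eq_one.1 hme⟩
  obtain ⟨⟨hA, hB⟩ | ⟨hA, -⟩, -, -, -⟩ := hpq
  swap
  · rw [mul_assoc] at hA; omega
  have h2 : (2 : ℤ) ∣ m * e := ⟨p * q, by rw [hB]; ring⟩
  obtain ⟨f, rfl⟩ : (2 : ℤ) ∣ e := hm2.symm.dvd_of_dvd_mul_left h2
  have hmf : m * f = p * q := by
    have : 2 * (m * f) = 2 * (p * q) := by linear_combination hB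
    omega
  obtain ⟨a, b, c, d, rfl, rfl, rfl, rfl, hbc⟩ :=
    four_number (by omega) hco.of_mul_right_right hmf
  by_contra hne
  have hd : d ≠ 0 := fun h0 => hne (by rw [h0]; ring)
  have had : IsCoprime a d := hco.of_mul_right_right.of_mul_left_left.of_mul_right_right
  have haodd : a % 2 = 1 := Int.odd_iff.1 (Int.Odd.of_mul_left (Int.odd_iff.2 hm))
  have hbodd : b % 2 = 1 := Int.odd_iff.1 (Int.Odd.of_mul_right (Int.odd_iff.2 hm))
  have key : a ^ 2 * (b ^ 2 - c ^ 2) = d ^ 2 * (16 * c ^ 2 - b ^ 2) := by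
    linear_combination hA
  obtain ⟨k, hk⟩ : d ^ 2 ∣ b ^ 2 - c ^ 2 := had.symm.pow.dvd_of_dvd_mul_left ⟨_, key⟩
  have hk' : 16 * c ^ 2 - b ^ 2 = a ^ 2 * k :=
    mul_left_cancel₀ (pow_ne_zero 2 hd) (by rw [← key, hk]; ring)
  have e1 : 15 * c ^ 2 = k * (a ^ 2 + d ^ 2) := by linear_combination hk + hk'
  have e2 : 15 * b ^ 2 = k * (a ^ 2 + 16 * d ^ 2) := by linear_combination 16 * hk + hk'
  have hk15 : k ∣ 15 := dvd_fifteen_of_coprime (coprime_sq_of_coprime hbc) ⟨_, e2⟩ ⟨_, e1⟩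
  have hkpos : 0 < k := by
    have hb2 : 0 < b ^ 2 := by
      have : b ≠ 0 := by omega
      positivity
    nlinarith [sq_nonneg a, sq_nonneg d]
  obtain ⟨i, hi⟩ := sq_mod_eight_of_odd haodd
  obtain ⟨l, hl⟩ := sq_mod_eight_of_odd hbodd
  have hmod : 120 * l + 15 = 8 * (k * i) + k + 16 * (k * d ^ 2) := by
    linear_combination e2 - 15 * hl + k * hi
  have hk_eq : k = 15 := by
    rcases dvd_fifteen hkpos hk15 with h | h | h | h <;> omega
  subst hk_eq
  exact hd (concordant _ a d c b rfl haodd had (by linarith) (by linarith))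

lemma quartic_even_step {g e n : ℤ} (hg : g % 2 = 0) (he : e % 2 = 1) (hco : IsCoprime g e)
    (h : 4 * (g ^ 2 - e ^ 2) ^ 2 + (g * e) ^ 2 = n ^ 2) : g = 0 := by
  obtain ⟨u, rfl⟩ : (2 : ℤ) ∣ g := Int.dvd_of_emod_eq_zero hg
  obtain ⟨n', rfl⟩ : (2 : ℤ) ∣ n :=
    Int.Prime.dvd_pow' Nat.prime_two
      (k := 2) (⟨2 * (4 * u ^ 2 - e ^ 2) ^ 2 + 2 * u ^ 2 * e ^ 2, by
        push_cast; linear_combination -h⟩ : ((2 : ℕ) : ℤ) ∣ n ^ 2)
  have h' : (e ^ 2 - 4 * u ^ 2) ^ 2 + (e * u) ^ 2 = n' ^ 2 := by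
    have : 4 * ((e ^ 2 - 4 * u ^ 2) ^ 2 + (e * u) ^ 2) = 4 * n' ^ 2 := by linear_combination h
    linarith
  rw [quartic_odd he hco.symm.of_mul_right_right h', mul_zero]

lemma quartic_even {g e n : ℤ} (he : e % 2 = 1) (hco : IsCoprime g e)
    (h : 4 * (g ^ 2 - e ^ 2) ^ 2 + (g * e) ^ 2 = n ^ 2) : g = 0 ∨ g ^ 2 = e ^ 2 := by
  rcases Int.emod_two_eq_zero_or_one g with hg | hg
  · exact Or.inl (quartic_even_step hg he hco h)
  refine Or.inr ?_
  have hp : PythagoreanTriple (g * e) (2 * (g ^ 2 - e ^ 2)) n := by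
    unfold PythagoreanTriple; linear_combination h
  have hodd : (g * e) % 2 = 1 := Int.odd_iff.1 ((Int.odd_iff.2 hg).mul (Int.odd_iff.2 he))
  have h2 : IsCoprime (g * e) 2 := ⟨1, -((g * e) / 2), by omega⟩
  have hcop : IsCoprime (g * e) (2 * (g ^ 2 - e ^ 2)) := by
    refine h2.mul_right (IsCoprime.mul_left ?_ ?_)
    · rw [show g ^ 2 - e ^ 2 = -(e ^ 2) + g * g by ring, IsCoprime.add_mul_right_right_iff]
      exact hco.pow_right.neg_right
    · rw [show g ^ 2 - e ^ 2 = g ^ 2 + (-e) * e by ring, IsCoprime.add_mul_right_right_iff]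
      exact hco.symm.pow_right
  obtain ⟨p, q, hpq⟩ := PythagoreanTriple.coprime_classification.1
    ⟨hp, Int.isCoprime_iff_gcd_eq_one.1 hcop⟩
  obtain ⟨⟨hA, hB⟩ | ⟨hA, -⟩, -, hg1, hpar⟩ := hpq
  swap
  · rw [mul_assoc] at hA; omega
  have hB' : g ^ 2 - e ^ 2 = p * q := by
    rw [mul_assoc] at hB; omega
  have hcpq : IsCoprime p q := Int.isCoprime_iff_gcd_eq_one.2 hg1
  rcases hpar with ⟨hp0, hq1⟩ | ⟨hp1, hq0⟩
  · have := quartic_even_step (n := g ^ 2 + e ^ 2) hp0 hq1 hcpq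
      (by linear_combination (-4) * (g * e + p ^ 2 - q ^ 2) * hA - (g ^ 2 - e ^ 2 + p * q) * hB')
    rw [this, zero_mul] at hB'
    linarith
  · have := quartic_even_step (n := g ^ 2 + e ^ 2) hq0 hp1 hcpq.symm
      (by linear_combination (-4) * (g * e + p ^ 2 - q ^ 2) * hA - (g ^ 2 - e ^ 2 + p * q) * hB')
    rw [this, mul_zero] at hB'
    linarith

lemma quartic {m e n : ℤ} (hco : IsCoprime m e)
    (h : m ^ 4 - 7 * m ^ 2 * e ^ 2 + 16 * e ^ 4 = n ^ 2) :
    m = 0 ∨ e = 0 ∨ m ^ 2 = 4 ∧ e ^ 2 = 1 := by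
  rcases Int.emod_two_eq_zero_or_one m with hm | hm
  · obtain ⟨g, rfl⟩ : (2 : ℤ) ∣ m := Int.dvd_of_emod_eq_zero hm
    have he : e % 2 = 1 := by
      by_contra he
      have h2 : (2 : ℤ) ∣ e := Int.dvd_of_emod_eq_zero (by omega)
      have := hco.isUnit_of_dvd' (dvd_mul_right 2 g) h2
      rw [Int.isUnit_iff] at this
      omega
    obtain ⟨n', rfl⟩ : (2 : ℤ) ∣ n :=
      Int.Prime.dvd_pow' Nat.prime_two
        (k := 2) (⟨8 * g ^ 4 - 14 * g ^ 2 * e ^ 2 + 8 * e ^ 4, by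
          push_cast; linear_combination -h⟩ : ((2 : ℕ) : ℤ) ∣ n ^ 2)
    have h' : 4 * (g ^ 2 - e ^ 2) ^ 2 + (g * e) ^ 2 = n' ^ 2 := by
      have : 4 * (4 * (g ^ 2 - e ^ 2) ^ 2 + (g * e) ^ 2) = 4 * n' ^ 2 := by linear_combination h
      linarith
    have hco' : IsCoprime g e := hco.of_mul_left_right
    rcases quartic_even he hco' h' with hg | hg
    · exact Or.inl (by rw [hg, mul_zero])
    · refine Or.inr (Or.inr ?_)
      have hgg : IsCoprime (g ^ 2) (e ^ 2) := hco'.pow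
      rw [← hg] at hgg
      have hu : IsUnit (g ^ 2) := hgg.isUnit_of_dvd' dvd_rfl dvd_rfl
      rw [Int.isUnit_iff] at hu
      have : g ^ 2 = 1 := by rcases hu with hu | hu <;> nlinarith [sq_nonneg g]
      exact ⟨by linear_combination 4 * this, by rw [← hg]; exact this⟩
  · exact Or.inr (Or.inl (quartic_odd hm hco (n := n) (by linear_combination h)))

lemma zmod_eight_odd : ∀ m n : ZMod 8, 2 * (2 * m + 1) ^ 4 + (2 * m + 1) ^ 2 ≠ n ^ 2 := by decide

lemma zmod_eight_even : ∀ m n : ZMod 8, 8 * m ^ 4 + m ^ 2 + 2 ≠ n ^ 2 := by decide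

lemma no_two {m e n : ℤ} (he : e % 2 = 1) :
    2 * m ^ 4 - 7 * m ^ 2 * e ^ 2 + 8 * e ^ 4 ≠ n ^ 2 := by
  intro h
  obtain ⟨j, hj⟩ := sq_mod_eight_of_odd he
  have h8 : (8 : ZMod 8) = 0 := rfl
  have hje : ((e : ZMod 8)) ^ 2 = 1 := by
    have := congrArg (Int.cast : ℤ → ZMod 8) hj
    push_cast at this
    rw [h8] at this; simpa using this
  rcases Int.emod_two_eq_zero_or_one m with hm | hm
  · obtain ⟨m', rfl⟩ : (2 : ℤ) ∣ m := Int.dvd_of_emod_eq_zero hm
    obtain ⟨n', rfl⟩ : (2 : ℤ) ∣ n :=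
      Int.Prime.dvd_pow' Nat.prime_two
        (k := 2) (⟨16 * m' ^ 4 - 14 * m' ^ 2 * e ^ 2 + 4 * e ^ 4, by
          push_cast; linear_combination -h⟩ : ((2 : ℕ) : ℤ) ∣ n ^ 2)
    have h' : 8 * m' ^ 4 - 7 * m' ^ 2 * e ^ 2 + 2 * e ^ 4 = n' ^ 2 := by
      have : 4 * (8 * m' ^ 4 - 7 * m' ^ 2 * e ^ 2 + 2 * e ^ 4) = 4 * n' ^ 2 := by
        linear_combination h
      linarith
    have := congrArg (Int.cast : ℤ → ZMod 8) h'
    push_cast at this
    refine zmod_eight_even (m' : ZMod 8) (n' : ZMod 8) ?_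
    linear_combination this + (7 * (m' : ZMod 8) ^ 2 - 2 * ((e : ZMod 8) ^ 2 + 1)) * hje
      + (m' : ZMod 8) ^ 2 * h8
  · obtain ⟨m', rfl⟩ : ∃ m', m = 2 * m' + 1 := ⟨m / 2, by omega⟩
    have := congrArg (Int.cast : ℤ → ZMod 8) h
    push_cast at this
    refine zmod_eight_odd (m' : ZMod 8) (n : ZMod 8) ?_
    linear_combination this + (7 * (2 * (m' : ZMod 8) + 1) ^ 2 - 8 * ((e : ZMod 8) ^ 2 + 1)) * hje
      + ((2 * (m' : ZMod 8) + 1) ^ 2 - 1) * h8

/-- Integral form of the descent. -/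
lemma int_points {A e w : ℤ} (he : e ≠ 0) (hco : IsCoprime A e)
    (h : A * (A ^ 2 - 7 * A * e ^ 2 + 16 * e ^ 4) = w ^ 2) :
    A = 0 ∨ A = 4 ∧ e ^ 2 = 1 := by
  by_cases hA : A = 0
  · exact Or.inl hA
  set Q := A ^ 2 - 7 * A * e ^ 2 + 16 * e ^ 4 with hQ
  have hQpos : 0 < Q := by
    have : 0 < e ^ 4 := by positivity
    nlinarith [sq_nonneg (2 * A - 7 * e ^ 2)]
  have hApos : 0 < A := by
    by_contra hneg
    have : A < 0 := by omega
    nlinarith [sq_nonneg w]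
  obtain ⟨d, m, hdm, hd⟩ := Nat.sq_mul_squarefree A.natAbs
  have hAdm : A = (m : ℤ) ^ 2 * (d : ℤ) := by
    have : ((m ^ 2 * d : ℕ) : ℤ) = A := by rw [hdm]; omega
    push_cast at this; exact this.symm
  have hm0 : (m : ℤ) ≠ 0 := fun h0 => hA (by rw [hAdm, h0]; ring)
  have hd0 : (d : ℤ) ≠ 0 := fun h0 => hA (by rw [hAdm, h0]; ring)
  obtain ⟨w', rfl⟩ : (m : ℤ) ∣ w :=
    (Int.pow_dvd_pow_iff two_ne_zero).1 ⟨(d : ℤ) * Q, by rw [← h, hAdm]; ring⟩
  have h1 : (d : ℤ) * Q = w' ^ 2 :=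
    mul_left_cancel₀ (pow_ne_zero 2 hm0) (by linear_combination h - Q * hAdm)
  have hdsq : Squarefree (d : ℤ) := Int.squarefree_natCast.2 hd
  obtain ⟨n, rfl⟩ : (d : ℤ) ∣ w' := (hdsq.dvd_pow_iff_dvd two_ne_zero).1 ⟨Q, h1.symm⟩
  have hQd : Q = d * n ^ 2 := mul_left_cancel₀ hd0 (by linear_combination h1)
  have hd16 : (d : ℤ) ∣ 16 := by
    have hde : IsCoprime (d : ℤ) (e ^ 4) := by
      rw [hAdm] at hco
      exact hco.of_mul_left_right.pow_right
    refine hde.dvd_of_dvd_mul_right ⟨n ^ 2 - (m : ℤ) ^ 2 * A + 7 * m ^ 2 * e ^ 2, ?_⟩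
    linear_combination hQd - hQ + (-A + 7 * e ^ 2) * hAdm
  have hd2 : (d : ℤ) ∣ 2 := (hdsq.dvd_pow_iff_dvd (by norm_num : (4 : ℕ) ≠ 0)).1
    (by norm_num; exact hd16)
  have hd12 : d = 1 ∨ d = 2 := (Nat.dvd_prime Nat.prime_two).1 (by exact_mod_cast hd2)
  rcases hd12 with rfl | rfl
  · rw [hQ, hAdm] at hQd
    rw [hAdm] at hco
    push_cast at hQd hco hAdm
    have hcm : IsCoprime (m : ℤ) e := by
      have := hco
      rw [mul_one, sq] at this
      exact this.of_mul_left_left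
    rcases quartic hcm (n := n) (by linear_combination hQd) with h0 | h0 | ⟨h0, h0'⟩
    · exact absurd h0 hm0
    · exact absurd h0 he
    · exact Or.inr ⟨by rw [hAdm, h0]; ring, h0'⟩
  · exfalso
    rw [hQ, hAdm] at hQd
    rw [hAdm] at hco
    push_cast at hQd hco
    have heodd : e % 2 = 1 := by
      by_contra hne
      have h2 : (2 : ℤ) ∣ e := Int.dvd_of_emod_eq_zero (by omega)
      have := hco.isUnit_of_dvd' (dvd_mul_left 2 ((m : ℤ) ^ 2)) h2
      rw [Int.isUnit_iff] at this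
      omega
    refine no_two (m := (m : ℤ)) (n := n) heodd ?_
    linarith [hQd]

/-- Rational points of `v^2 = u^3 - 7 u^2 + 16 u`. -/
theorem rational_points_short (u v : ℚ) (h : v ^ 2 = u ^ 3 - 7 * u ^ 2 + 16 * u) :
    u = 0 ∨ u = 4 := by
  set A := u.num with hA
  set B : ℤ := (u.den : ℤ) with hB
  have hB0 : B ≠ 0 := by simp [hB]
  have hBq : (B : ℚ) ≠ 0 := by exact_mod_cast hB0
  have hu : u = (A : ℚ) / (B : ℚ) := by simp [hA, hB, Rat.num_div_den]
  have hcop : IsCoprime A B :=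
    Int.isCoprime_iff_gcd_eq_one.2 (by simpa [hA, hB, Int.gcd, Int.natAbs_natCast] using u.reduced)
  set z : ℚ := v * (B : ℚ) ^ 2 with hz
  have hzsq : z ^ 2 = ((B * (A ^ 3 - 7 * A ^ 2 * B + 16 * A * B ^ 2) : ℤ) : ℚ) := by
    push_cast
    rw [hz, mul_pow, h, hu]
    field_simp
  obtain ⟨w, hw⟩ : ∃ w : ℤ, z = w := by
    refine ⟨z.num, (Rat.coe_int_num_of_den_eq_one ?_).symm⟩
    have h2 : (z ^ 2).den = 1 := by rw [hzsq]; exact Rat.den_intCast _
    rw [Rat.den_pow] at h2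
    exact (Nat.pow_eq_one.1 h2).resolve_right two_ne_zero
  have hint : B * (A ^ 3 - 7 * A ^ 2 * B + 16 * A * B ^ 2) = w ^ 2 := by
    rw [hw] at hzsq; exact_mod_cast hzsq.symm
  have hc : IsCoprime B (A ^ 3 - 7 * A ^ 2 * B + 16 * A * B ^ 2) := by
    rw [show A ^ 3 - 7 * A ^ 2 * B + 16 * A * B ^ 2 = A ^ 3 + (-7 * A ^ 2 + 16 * A * B) * B by
      ring, IsCoprime.add_mul_right_right_iff]
    exact hcop.symm.pow_right
  obtain ⟨e, he | he⟩ := Int.sq_of_isCoprime hc hint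
  swap
  · exfalso
    have hBpos : 0 < B := by simp [hB, u.den_pos]
    nlinarith [sq_nonneg e]
  have he0 : e ≠ 0 := by
    intro h0
    exact hB0 (by rw [he, h0]; ring)
  rw [he] at hcop hint
  obtain ⟨w', rfl⟩ : e ∣ w := (Int.pow_dvd_pow_iff two_ne_zero).1 ⟨_, hint.symm⟩
  have h3 : A * (A ^ 2 - 7 * A * e ^ 2 + 16 * e ^ 4) = w' ^ 2 :=
    mul_left_cancel₀ (pow_ne_zero 2 he0) (by linear_combination hint)
  have hcop' : IsCoprime A e := by
    rw [sq] at hcop; exact hcop.of_mul_right_left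
  rcases int_points he0 hcop' h3 with h4 | ⟨h4, h5⟩
  · left; rw [hu, h4]; simp
  · right; rw [hu, h4, he, h5]; norm_num

/-- The rational affine points of `X_1(15) : y^2 + x y + y = x^3 + x^2`. -/
theorem rational_points (x y : ℚ) (h : y ^ 2 + x * y + y = x ^ 3 + x ^ 2) :
    (x = 0 ∧ y = 0) ∨ (x = 0 ∧ y = -1) ∨ (x = -1 ∧ y = 0) := by
  have hv : (4 * (2 * y + x + 1)) ^ 2
      = (4 * x + 4) ^ 3 - 7 * (4 * x + 4) ^ 2 + 16 * (4 * x + 4) := by
    linear_combination 64 * h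
  rcases rational_points_short _ _ hv with h0 | h0
  · obtain rfl : x = -1 := by linarith
    refine Or.inr (Or.inr ⟨rfl, ?_⟩)
    have : y ^ 2 = 0 := by linear_combination h
    exact pow_eq_zero_iff two_ne_zero |>.1 this
  · obtain rfl : x = 0 := by linarith
    have : y * (y + 1) = 0 := by linear_combination h
    rcases mul_eq_zero.1 this with h1 | h1
    · exact Or.inl ⟨rfl, h1⟩
    · exact Or.inr (Or.inl ⟨rfl, by linarith⟩)

end Fermat.Agent.Descent15
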